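/-
Every domain of characteristic zero which is finite over `ℤ` maps to the integers of a finite
extension of `ℚ_p`.
-/
import Fermat.Agent.RepLemmas.DVRExtension
import Mathlib.NumberTheory.Padics.RingHoms
import Mathlib.FieldTheory.IsAlgClosed.AlgebraicClosure
import Mathlib.RingTheory.Adjoin.Field

set_option autoImplicit false

open IntermediateField

namespace Fermat.Agent.CondLevel

theorem exists_adicTarget (p : ℕ) [Fact p.Prime] (R : Type) [CommRing R] [IsDomain R] [CharZero R]
    [Module.Finite ℤ R] :
    ∃ (O : Type) (_ : CommRing O) (_ : IsDomain O) (_ : IsDiscreteValuationRing O)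
      (_ : IsAdicComplete (IsLocalRing.maximalIdeal O) O)
      (_ : Finite (IsLocalRing.ResidueField O)) (_ : CharZero O) (_ : R →+* O),
      (p : O) ∈ IsLocalRing.maximalIdeal O := by
  classical
  have : Algebra.IsIntegral ℤ R := Algebra.IsIntegral.of_finite ℤ R
  have : Algebra.IsAlgebraic ℤ R := Algebra.IsIntegral.isAlgebraic
  let f : R →ₐ[ℤ] AlgebraicClosure ℚ_[p] := IsAlgClosed.lift
  have hint : ∀ r : R, IsIntegral ℤ (f r) := fun r => (Algebra.IsIntegral.isIntegral r).map f
  obtain ⟨s, hs⟩ := (Module.finite_def.mp (inferInstance : Module.Finite ℤ R))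
  set K' : IntermediateField ℚ_[p] (AlgebraicClosure ℚ_[p]) :=
    adjoin ℚ_[p] ((s.image f : Finset _) : Set (AlgebraicClosure ℚ_[p])) with hK'
  have : FiniteDimensional ℚ_[p] K' := by
    refine finiteDimensional_adjoin fun x hx => ?_
    exact (Algebra.IsIntegral.isIntegral x)
  have hmem : ∀ r : R, f r ∈ K' := by
    intro r
    have hr : r ∈ Submodule.span ℤ (s : Set R) := by rw [hs]; exact Submodule.mem_top
    induction hr using Submodule.span_induction with
    | mem x hx => exact subset_adjoin _ _ (Finset.mem_coe.mpr (Finset.mem_image_of_mem _ hx))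
    | zero => rw [map_zero]; exact zero_mem _
    | add x y _ _ hx hy => rw [map_add]; exact add_mem hx hy
    | smul a x _ hx => rw [map_zsmul]; exact zsmul_mem hx a
  obtain ⟨hdvr, hfin, hloc, hinj, -, hcomp, hres⟩ :=
    RepLemmas.integralClosure_isDVR ℤ_[p] ℚ_[p] K'
  let g : R →+* K' := (f : R →+* AlgebraicClosure ℚ_[p]).codRestrict K'.toSubfield.toSubring hmem
  have hg : ∀ r, g r ∈ integralClosure ℤ_[p] K' := fun r => by
    have h : IsIntegral ℤ (g r) :=
      (Algebra.IsIntegral.isIntegral r).map g.toIntAlgHom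
    exact h.tower_top
  have : Finite (IsLocalRing.ResidueField ℤ_[p]) :=
    Finite.of_equiv _ (PadicInt.residueField (p := p)).symm.toEquiv
  have : CharZero (integralClosure ℤ_[p] K') := charZero_of_injective_ringHom
    (f := algebraMap ℤ_[p] (integralClosure ℤ_[p] K')) hinj
  refine ⟨integralClosure ℤ_[p] K', inferInstance, inferInstance, hdvr, hcomp, hres inferInstance,
    inferInstance, g.codRestrict (integralClosure ℤ_[p] K').toSubring hg, ?_⟩
  have hp : (p : ℤ_[p]) ∈ IsLocalRing.maximalIdeal ℤ_[p] := by
    rw [PadicInt.maximalIdeal_eq_span_p]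
    exact Ideal.mem_span_singleton_self _
  have h := map_nonunit (algebraMap ℤ_[p] (integralClosure ℤ_[p] K')) (p : ℤ_[p]) hp
  rwa [map_natCast] at h

end Fermat.Agent.CondLevel
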