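/-
Elementary facts on `2 × 2` matrices over a commutative ring used for the comparison of the
`λ^n`-torsion of an elliptic curve with a `λ`-adic representation.
-/
import Mathlib.LinearAlgebra.Matrix.Trace
import Mathlib.LinearAlgebra.Matrix.Determinant.Basic
import Mathlib.Tactic.LinearCombination
import Mathlib.Tactic.Abel

set_option autoImplicit false

namespace Fermat.Agent.CondLevel

variable {R : Type*} [CommRing R]

/-- Cayley–Hamilton for `2 × 2` matrices, in the form used below. -/
theorem matrix2_mul_self (A : Matrix (Fin 2) (Fin 2) R) :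
    A * A = A.trace • A - A.det • 1 := by
  ext i j
  fin_cases i <;> fin_cases j <;>
    simp [Matrix.mul_apply, Fin.sum_univ_two, Matrix.trace_fin_two, Matrix.det_fin_two] <;> ring

theorem matrix2_trace_pow_add_two (A : Matrix (Fin 2) (Fin 2) R) (k : ℕ) :
    (A ^ (k + 2)).trace = A.trace * (A ^ (k + 1)).trace - A.det * (A ^ k).trace := by
  rw [pow_add, pow_two, matrix2_mul_self, Matrix.mul_sub, Matrix.trace_sub, Matrix.mul_smul,
    Matrix.mul_smul, Matrix.trace_smul, Matrix.trace_smul, mul_one, ← pow_succ, smul_eq_mul,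
    smul_eq_mul]

/-- The trace of a power of a `2 × 2` matrix depends only on its trace and determinant. -/
theorem matrix2_trace_pow_congr {A B : Matrix (Fin 2) (Fin 2) R} (ht : A.trace = B.trace)
    (hd : A.det = B.det) : ∀ k : ℕ, (A ^ k).trace = (B ^ k).trace
  | 0 => by simp
  | 1 => by simpa using ht
  | k + 2 => by
    rw [matrix2_trace_pow_add_two, matrix2_trace_pow_add_two, ht, hd,
      matrix2_trace_pow_congr ht hd k, matrix2_trace_pow_congr ht hd (k + 1)]

theorem matrix2_det_pow_congr {A B : Matrix (Fin 2) (Fin 2) R} (hd : A.det = B.det) (k : ℕ) :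
    (A ^ k).det = (B ^ k).det := by
  rw [Matrix.det_pow, Matrix.det_pow, hd]

/-- If `(A - 1)² = 0` then `trace A - 2` and `det A - trace A + 1` are nilpotent of order at most
`4` and `2`. -/
theorem matrix2_of_sub_one_sq_eq_zero {A : Matrix (Fin 2) (Fin 2) R} (h : (A - 1) * (A - 1) = 0) :
    (A.trace - 2) ^ 4 = 0 ∧ (A.det - A.trace + 1) ^ 2 = 0 := by
  have hdet : (A - 1).det = A.det - A.trace + 1 := by
    simp [Matrix.det_fin_two, Matrix.trace_fin_two]
    ring
  have htr : (A - 1).trace = A.trace - 2 := by
    simp [Matrix.trace_fin_two]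
  have h2 : ((A - 1).det) ^ 2 = 0 := by
    rw [pow_two, ← Matrix.det_mul, h, Matrix.det_zero]
  have h3 : (A - 1).trace ^ 2 = 2 * (A - 1).det := by
    have := congrArg Matrix.trace (matrix2_mul_self (A - 1))
    rw [h, Matrix.trace_zero, Matrix.trace_sub, Matrix.trace_smul, Matrix.trace_smul,
      Matrix.trace_one, smul_eq_mul, smul_eq_mul, Fintype.card_fin] at this
    push_cast at this
    linear_combination -this
  rw [hdet] at h2 h3
  rw [htr] at h3
  refine ⟨?_, h2⟩
  rw [show (4 : ℕ) = 2 * 2 from rfl, pow_mul, h3, mul_pow, h2, mul_zero]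

end Fermat.Agent.CondLevel
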