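/-
An odd two-dimensional representation is irreducible iff a certain expression in its traces is
non-zero; hence irreducibility of an odd representation is inherited by every representation with
the same traces, over any extension field.
-/
import Mathlib.LinearAlgebra.Trace
import Mathlib.LinearAlgebra.Determinant
import Mathlib.LinearAlgebra.Matrix.ToLin
import Mathlib.LinearAlgebra.FiniteDimensional.Basic
import Fermat.Agent.CondLevel.Matrix2

set_option autoImplicit false

namespace Fermat.Agent.CondLevel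

variable {G : Type*} [Group G] {R : Type*} [CommRing R]

/-- The "off diagonal product" of a pseudo-representation `t` with a distinguished involution
`c`. -/
def oddOffDiag (t : G → R) (c σ τ : G) : R :=
  2 * (t (σ * τ) + t (c * (σ * τ))) - (t σ + t (c * σ)) * (t τ + t (c * τ))

theorem map_oddOffDiag {S : Type*} [CommRing S] (φ : R →+* S) (t : G → R) (c σ τ : G) :
    φ (oddOffDiag t c σ τ) = oddOffDiag (fun g => φ (t g)) c σ τ := by
  simp only [oddOffDiag, map_sub, map_mul, map_add, map_ofNat]

variable {k : Type*} [Field k] {V : Type*} [AddCommGroup V] [Module k V]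

theorem exists_eigenbasis_of_involution (h2 : (2 : k) ≠ 0) (hV : Module.finrank k V = 2)
    (C : Module.End k V) (hC : C * C = 1) (hdet : LinearMap.det C = -1) :
    ∃ b : Module.Basis (Fin 2) k V, C (b 0) = b 0 ∧ C (b 1) = -b 1 := by
  have : Module.Finite k V := Module.finite_of_finrank_eq_succ hV
  have hCC : ∀ v : V, C (C v) = v := fun v => by
    simpa [Module.End.mul_apply] using LinearMap.congr_fun hC v
  have hne : (-1 : k) ≠ 1 := fun h => h2 (by linear_combination -h)
  obtain ⟨e, he0, he⟩ : ∃ e : V, e ≠ 0 ∧ C e = e := by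
    by_contra hcon
    push Not at hcon
    have hC1 : C = -1 := by
      ext v
      by_contra hv
      refine hcon (C v + v) ?_ ?_
      · intro h
        exact hv (by simpa using eq_neg_of_add_eq_zero_left h)
      · rw [map_add, hCC, add_comm]
    rw [hC1, show (-1 : Module.End k V) = (-1 : k) • (1 : Module.End k V) by simp,
      LinearMap.det_smul, hV] at hdet
    simp at hdet
    exact hne hdet.symm
  obtain ⟨f, hf0, hf⟩ : ∃ f : V, f ≠ 0 ∧ C f = -f := by
    by_contra hcon
    push Not at hcon
    have hC1 : C = 1 := by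
      ext v
      by_contra hv
      refine hcon (C v - v) ?_ ?_
      · intro h
        exact hv (by simpa using sub_eq_zero.mp h)
      · rw [map_sub, hCC, neg_sub]
    rw [hC1, map_one] at hdet
    exact hne hdet.symm
  have hli : LinearIndependent k ![e, f] := by
    rw [LinearIndependent.pair_iff]
    intro s t h
    have h' := congrArg C h
    rw [map_add, map_smul, map_smul, he, hf, map_zero, smul_neg] at h'
    have hs : (2 : k) • (s • e) = 0 := by
      rw [two_smul]
      calc s • e + s • e = (s • e + t • f) + (s • e + -(t • f)) := by abel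
        _ = 0 := by rw [h, h', add_zero]
    have hs0 : s = 0 :=
      (smul_eq_zero.mp ((smul_eq_zero.mp hs).resolve_left h2)).resolve_right he0
    refine ⟨hs0, ?_⟩
    rw [hs0, zero_smul, zero_add] at h
    exact (smul_eq_zero.mp h).resolve_right hf0
  refine ⟨basisOfLinearIndependentOfCardEqFinrank hli (by simp [hV]), ?_, ?_⟩ <;>
    simp [he, hf]

theorem toMatrix_eigenbasis {C : Module.End k V} {b : Module.Basis (Fin 2) k V}
    (h0 : C (b 0) = b 0) (h1 : C (b 1) = -b 1) :
    LinearMap.toMatrix b b C = !![1, 0; 0, -1] := by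
  ext i j
  fin_cases j <;> fin_cases i <;> simp [LinearMap.toMatrix_apply, h0, h1]

/-- Matrix form of a representation in a basis. -/
noncomputable def matrixRep {V : Type*} [AddCommGroup V] [Module R V]
    (b : Module.Basis (Fin 2) R V) (ρ : G →* Module.End R V) :
    G →* Matrix (Fin 2) (Fin 2) R :=
  (LinearMap.toMatrixAlgEquiv b).toMonoidHom.comp ρ

theorem matrixRep_apply {V : Type*} [AddCommGroup V] [Module R V]
    (b : Module.Basis (Fin 2) R V) (ρ : G →* Module.End R V) (g : G) :
    matrixRep b ρ g = LinearMap.toMatrix b b (ρ g) := rfl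

theorem oddOffDiag_eq_four_mul (ρ : G →* Module.End k V) (b : Module.Basis (Fin 2) k V) {c : G}
    (h0 : ρ c (b 0) = b 0) (h1 : ρ c (b 1) = -b 1) (σ τ : G) :
    oddOffDiag (fun g => LinearMap.trace k V (ρ g)) c σ τ =
      4 * matrixRep b ρ σ 0 1 * matrixRep b ρ τ 1 0 := by
  have hc : matrixRep b ρ c = !![1, 0; 0, -1] := toMatrix_eigenbasis h0 h1
  have ht : ∀ g, LinearMap.trace k V (ρ g) + LinearMap.trace k V (ρ (c * g)) =
      2 * matrixRep b ρ g 0 0 := by
    intro g
    rw [LinearMap.trace_eq_matrix_trace k b, LinearMap.trace_eq_matrix_trace k b,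
      ← matrixRep_apply, ← matrixRep_apply, map_mul (matrixRep b ρ) c g, hc]
    simp [Matrix.trace_fin_two, Matrix.vecMul, dotProduct, Fin.sum_univ_two]
    ring
  simp only [oddOffDiag, ht]
  rw [map_mul (matrixRep b ρ) σ τ, Matrix.mul_apply, Fin.sum_univ_two]
  ring

/-- An irreducible odd representation has a non-zero off diagonal product. -/
theorem exists_oddOffDiag_ne_zero (h2 : (2 : k) ≠ 0) (hV : Module.finrank k V = 2)
    (ρ : G →* Module.End k V) {c : G} (hcc : c * c = 1) (hdet : LinearMap.det (ρ c) = -1)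
    (hirr : ∀ W : Submodule k V, (∀ σ, ∀ x ∈ W, ρ σ x ∈ W) → W = ⊥ ∨ W = ⊤) :
    ∃ σ τ, oddOffDiag (fun g => LinearMap.trace k V (ρ g)) c σ τ ≠ 0 := by
  obtain ⟨b, h0, h1⟩ := exists_eigenbasis_of_involution h2 hV (ρ c)
    (by rw [← map_mul, hcc, map_one]) hdet
  have h4 : (4 : k) ≠ 0 := by
    rw [show (4 : k) = 2 * 2 by norm_num]; exact mul_ne_zero h2 h2
  have key : ∀ i j : Fin 2, i ≠ j → ∃ σ, matrixRep b ρ σ j i ≠ 0 := by
    intro i j hij
    by_contra hcon
    push Not at hcon
    have hstab : ∀ σ, ∀ x ∈ (k ∙ b i), ρ σ x ∈ (k ∙ b i) := by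
      intro σ x hx
      obtain ⟨a, rfl⟩ := Submodule.mem_span_singleton.mp hx
      rw [map_smul]
      refine Submodule.smul_mem _ _ (Submodule.mem_span_singleton.mpr ⟨b.repr (ρ σ (b i)) i, ?_⟩)
      have hz : b.repr (ρ σ (b i)) j = 0 := by
        simpa [matrixRep_apply, LinearMap.toMatrix_apply] using hcon σ
      have hsum := b.sum_repr (ρ σ (b i))
      rw [Fin.sum_univ_two] at hsum
      fin_cases i <;> fin_cases j <;> simp_all
    rcases hirr _ hstab with hbot | htop
    · exact b.ne_zero i (by simpa [Submodule.span_singleton_eq_bot] using hbot)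
    · have := congrArg (fun W : Submodule k V => Module.finrank k W) htop
      simp only [finrank_top, hV, finrank_span_singleton (b.ne_zero i)] at this
      exact absurd this (by norm_num)
  obtain ⟨σ, hσ⟩ := key 1 0 (by decide)
  obtain ⟨τ, hτ⟩ := key 0 1 (by decide)
  exact ⟨σ, τ, by rw [oddOffDiag_eq_four_mul ρ b h0 h1]; exact mul_ne_zero (mul_ne_zero h4 hσ) hτ⟩

/-- An odd representation with a non-zero off diagonal product is irreducible. -/
theorem irreducible_of_oddOffDiag_ne_zero (h2 : (2 : k) ≠ 0) (hV : Module.finrank k V = 2)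
    (ρ : G →* Module.End k V) {c : G} (hcc : c * c = 1) (hdet : LinearMap.det (ρ c) = -1)
    {σ τ : G} (hne : oddOffDiag (fun g => LinearMap.trace k V (ρ g)) c σ τ ≠ 0)
    (W : Submodule k V) (hW : ∀ σ, ∀ x ∈ W, ρ σ x ∈ W) : W = ⊥ ∨ W = ⊤ := by
  have : Module.Finite k V := Module.finite_of_finrank_eq_succ hV
  obtain ⟨b, h0, h1⟩ := exists_eigenbasis_of_involution h2 hV (ρ c)
    (by rw [← map_mul, hcc, map_one]) hdet
  rw [oddOffDiag_eq_four_mul ρ b h0 h1] at hne
  by_contra hcon
  push Not at hcon
  obtain ⟨x, hxW, hx⟩ := Submodule.exists_mem_ne_zero_of_ne_bot hcon.1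
  have hx' : x = b.repr x 0 • b 0 + b.repr x 1 • b 1 := by
    conv_lhs => rw [← b.sum_repr x]
    exact Fin.sum_univ_two _
  have hcx : ρ c x = b.repr x 0 • b 0 - b.repr x 1 • b 1 := by
    conv_lhs => rw [hx']
    simp [h0, h1, sub_eq_add_neg]
  have hm0 : b.repr x 0 • b 0 ∈ W := by
    have h : (2 : k) • (b.repr x 0 • b 0) = x + ρ c x := by
      rw [hcx, two_smul]
      nth_rw 3 [hx']
      abel
    exact (Submodule.smul_mem_iff _ h2).mp (h ▸ add_mem hxW (hW c x hxW))
  have hm1 : b.repr x 1 • b 1 ∈ W := by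
    have h : b.repr x 1 • b 1 = x - b.repr x 0 • b 0 := by
      nth_rw 2 [hx']
      abel
    exact h ▸ sub_mem hxW hm0
  obtain ⟨i, hi⟩ : ∃ i : Fin 2, b i ∈ W := by
    by_cases hz : b.repr x 0 = 0
    · refine ⟨1, (Submodule.smul_mem_iff _ ?_).mp hm1⟩
      intro hz1
      exact hx (by rw [hx', hz, hz1, zero_smul, zero_smul, add_zero])
    · exact ⟨0, (Submodule.smul_mem_iff _ hz).mp hm0⟩
  obtain ⟨g, j, hji, hg⟩ : ∃ (g : G) (j : Fin 2), j ≠ i ∧ matrixRep b ρ g j i ≠ 0 := by
    match i with
    | 0 => exact ⟨τ, 1, by decide, fun h => hne (by simp [h])⟩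
    | 1 => exact ⟨σ, 0, by decide, fun h => hne (by simp [h])⟩
  have hbj : b j ∈ W := by
    have hmem := hW g _ hi
    have h : b.repr (ρ g (b i)) j • b j = ρ g (b i) - b.repr (ρ g (b i)) i • b i := by
      have hsum := b.sum_repr (ρ g (b i))
      rw [Fin.sum_univ_two] at hsum
      rw [eq_sub_iff_add_eq]
      match i, j, hji with
      | 0, 0, hji => exact absurd rfl hji
      | 0, 1, _ => rw [add_comm]; exact hsum
      | 1, 0, _ => exact hsum
      | 1, 1, hji => exact absurd rfl hji
    rw [matrixRep_apply, LinearMap.toMatrix_apply] at hg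
    exact (Submodule.smul_mem_iff _ hg).mp (h ▸ sub_mem hmem (Submodule.smul_mem _ _ hi))
  refine hcon.2 (eq_top_iff.mpr ?_)
  rw [← b.span_eq, Submodule.span_le]
  rintro _ ⟨l, rfl⟩
  rcases eq_or_ne l i with rfl | hl
  · exact hi
  · have : l = j := by omega
    exact this ▸ hbj

end Fermat.Agent.CondLevel
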