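/-
Comparison of a two-dimensional `λ`-adic representation with the torsion of an elliptic curve,
by Frobenius' density theorem: equal traces and determinants at almost all Frobenius elements
give congruent traces and determinants everywhere.
-/
import Fermat.Prelude.Def_GaloisRep_Adic
import Fermat.Agent.Density.Main
import Fermat.Agent.CondLevel.OddIrred
import Mathlib.LinearAlgebra.Charpoly.ToMatrix
import Mathlib.LinearAlgebra.Matrix.Charpoly.Coeff
import Mathlib.RingTheory.Filtration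
import Mathlib.RingTheory.DiscreteValuationRing.Basic

set_option autoImplicit false

open Polynomial

namespace Fermat.Agent.CondLevel

local notation "Γℚ" => AlgebraicClosure ℚ ≃ₐ[ℚ] AlgebraicClosure ℚ

section general

variable {R : Type*} [CommRing R]

/-- Two `2 × 2` matrix representations of finite level with equal trace and determinant at almost
all Frobenius elements have equal trace and determinant everywhere. -/
theorem trace_det_eq_of_frobenius (r₁ r₂ : Γℚ →* Matrix (Fin 2) (Fin 2) R)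
    (L : IntermediateField ℚ (AlgebraicClosure ℚ)) [FiniteDimensional ℚ L]
    (h₁ : ∀ σ : Γℚ, (∀ x ∈ L, σ x = x) → r₁ σ = 1)
    (h₂ : ∀ σ : Γℚ, (∀ x ∈ L, σ x = x) → r₂ σ = 1) (S : Finset ℕ)
    (h : ∀ ℓ : ℕ, ℓ.Prime → ℓ ∉ S → ∀ A : ValuationSubring (AlgebraicClosure ℚ),
      A.LiesOverPrime ℓ → ∀ τ : Γℚ, A.IsFrobeniusAt τ ℓ →
        (r₁ τ).trace = (r₂ τ).trace ∧ (r₁ τ).det = (r₂ τ).det) (σ : Γℚ) :
    (r₁ σ).trace = (r₂ σ).trace ∧ (r₁ σ).det = (r₂ σ).det := by
  have key : ∀ (r : Γℚ →* Matrix (Fin 2) (Fin 2) R),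
      (∀ σ : Γℚ, (∀ x ∈ L, σ x = x) → r σ = 1) →
        ∀ σ τ : Γℚ, (∀ x ∈ L, σ x = τ x) → r σ = r τ := by
    intro r hr σ τ hστ
    have h1 : r (σ⁻¹ * τ) = 1 := hr _ fun x hx => by
      rw [AlgEquiv.mul_apply, ← hστ x hx, ← AlgEquiv.mul_apply, inv_mul_cancel,
        AlgEquiv.one_apply]
    calc r σ = r σ * r (σ⁻¹ * τ) := by rw [h1, mul_one]
      _ = r τ := by rw [← map_mul, mul_inv_cancel_left]
  refine Density.forall_of_frobenius
    (P := fun σ => (r₁ σ).trace = (r₂ σ).trace ∧ (r₁ σ).det = (r₂ σ).det) L ?_ ?_ S h σ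
  · intro σ τ hστ hσ
    rw [← key r₁ h₁ σ τ hστ, ← key r₂ h₂ σ τ hστ]
    exact hσ
  · intro σ k hσ
    rw [map_pow, map_pow]
    exact ⟨matrix2_trace_pow_congr hσ.1 hσ.2 k, matrix2_det_pow_congr hσ.2 k⟩

theorem trace_det_of_charpoly_eq [Nontrivial R] {V : Type*} [AddCommGroup V] [Module R V]
    (b : Module.Basis (Fin 2) R V) [Module.Finite R V] [Module.Free R V] (f : Module.End R V)
    {t d : R} (hf : LinearMap.charpoly f = X ^ 2 - C t * X + C d) :
    LinearMap.trace R V f = t ∧ LinearMap.det f = d := by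
  rw [← LinearMap.charpoly_toMatrix f b, Matrix.charpoly_fin_two] at hf
  constructor
  · rw [LinearMap.trace_eq_matrix_trace R b]
    simpa using congrArg (fun P : R[X] => P.coeff 1) hf
  · rw [← LinearMap.det_toMatrix b]
    simpa using congrArg (fun P : R[X] => P.coeff 0) hf

theorem charpoly_eq_of_trace_det [Nontrivial R] {V : Type*} [AddCommGroup V] [Module R V]
    (b : Module.Basis (Fin 2) R V) [Module.Finite R V] [Module.Free R V] (f : Module.End R V) :
    LinearMap.charpoly f = X ^ 2 - C (LinearMap.trace R V f) * X + C (LinearMap.det f) := by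
  rw [← LinearMap.charpoly_toMatrix f b, Matrix.charpoly_fin_two,
    ← LinearMap.trace_eq_matrix_trace R b, LinearMap.det_toMatrix]

/-- The ring homomorphism out of `ZMod M` into a ring in which `M = 0`. -/
noncomputable def zmodHom (M : ℕ) (h : (M : R) = 0) : ZMod M →+* R :=
  (Ideal.Quotient.lift (Ideal.span {(M : ℤ)}) (Int.castRingHom R) (by
    intro a ha
    obtain ⟨b, rfl⟩ := Ideal.mem_span_singleton.mp ha
    simp [h])).comp (Int.quotientSpanNatEquivZMod M).symm.toRingHom

end general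

section adic

variable {O : Type} [CommRing O] [IsLocalRing O]

/-- A basis of the underlying module of a `GaloisRepAdic`. -/
noncomputable def adicBasis (ρ : GaloisRepAdic O) : Module.Basis (Fin 2) O ρ.V :=
  (Module.finBasis O ρ.V).reindex (finCongr ρ.finrank_eq)

/-- Reduction of the matrices of a `GaloisRepAdic` modulo an ideal. -/
noncomputable def adicMatrixRep (ρ : GaloisRepAdic O) (I : Ideal O) :
    Γℚ →* Matrix (Fin 2) (Fin 2) (O ⧸ I) :=
  (Ideal.Quotient.mk I).mapMatrix.toMonoidHom.comp (matrixRep (adicBasis ρ) ρ.ρ)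

theorem adicMatrixRep_apply (ρ : GaloisRepAdic O) (I : Ideal O) (σ : Γℚ) :
    adicMatrixRep ρ I σ =
      (Ideal.Quotient.mk I).mapMatrix (LinearMap.toMatrix (adicBasis ρ) (adicBasis ρ) (ρ.ρ σ)) :=
  rfl

theorem trace_adicMatrixRep (ρ : GaloisRepAdic O) (I : Ideal O) (σ : Γℚ) :
    (adicMatrixRep ρ I σ).trace = Ideal.Quotient.mk I (ρ.trace σ) := by
  rw [GaloisRepAdic.trace, LinearMap.trace_eq_matrix_trace O (adicBasis ρ), adicMatrixRep_apply,
    AddMonoidHom.map_trace]
  rfl

theorem det_adicMatrixRep (ρ : GaloisRepAdic O) (I : Ideal O) (σ : Γℚ) :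
    (adicMatrixRep ρ I σ).det = Ideal.Quotient.mk I (LinearMap.det (ρ.ρ σ)) := by
  rw [← LinearMap.det_toMatrix (adicBasis ρ), adicMatrixRep_apply, RingHom.map_det]

theorem adicMatrixRep_eq_one (ρ : GaloisRepAdic O) {n : ℕ} {σ : Γℚ}
    (h : ∀ v : ρ.V, ρ.ρ σ v - v ∈ (IsLocalRing.maximalIdeal O ^ n) • (⊤ : Submodule O ρ.V)) :
    adicMatrixRep ρ (IsLocalRing.maximalIdeal O ^ n) σ = 1 := by
  rw [adicMatrixRep_apply, ← map_one (Ideal.Quotient.mk (IsLocalRing.maximalIdeal O ^ n)).mapMatrix]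
  refine Matrix.ext fun i j => ?_
  rw [RingHom.mapMatrix_apply, RingHom.mapMatrix_apply, Matrix.map_apply, Matrix.map_apply,
    Ideal.Quotient.eq, LinearMap.toMatrix_apply]
  have key : ∀ x ∈ (IsLocalRing.maximalIdeal O ^ n) • (⊤ : Submodule O ρ.V),
      (adicBasis ρ).repr x i ∈ IsLocalRing.maximalIdeal O ^ n := by
    intro x hx
    refine Submodule.smul_induction_on hx ?_ ?_
    · intro a ha v _
      rw [map_smul, Finsupp.smul_apply, smul_eq_mul]
      exact Ideal.mul_mem_right _ _ ha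
    · intro x y hx hy
      rw [map_add, Finsupp.add_apply]
      exact add_mem hx hy
  have h' := key _ (h (adicBasis ρ j))
  rwa [map_sub, Finsupp.sub_apply, Module.Basis.repr_self, Finsupp.single_apply,
    show (if j = i then (1 : O) else 0) = (1 : Matrix (Fin 2) (Fin 2) O) i j by
      simp [Matrix.one_apply, eq_comm]] at h'

theorem trace_det_of_adic_charpoly_eq (ρ : GaloisRepAdic O) (σ : Γℚ) {t d : O}
    (h : LinearMap.charpoly (ρ.ρ σ) = X ^ 2 - C t * X + C d) :
    ρ.trace σ = t ∧ LinearMap.det (ρ.ρ σ) = d :=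
  trace_det_of_charpoly_eq (adicBasis ρ) (ρ.ρ σ) h

/-- Krull intersection: congruent modulo all powers of the maximal ideal implies equal. -/
theorem eq_of_forall_quotient_mk_eq [IsNoetherianRing O] {x y : O}
    (h : ∀ n : ℕ, Ideal.Quotient.mk (IsLocalRing.maximalIdeal O ^ n) x =
      Ideal.Quotient.mk (IsLocalRing.maximalIdeal O ^ n) y) : x = y := by
  have hmem : x - y ∈ (⨅ n : ℕ, IsLocalRing.maximalIdeal O ^ n) :=
    Submodule.mem_iInf _ |>.mpr fun n => Ideal.Quotient.eq.mp (h n)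
  rw [Ideal.iInf_pow_eq_bot_of_isLocalRing _ (IsLocalRing.maximalIdeal.isMaximal O).ne_top,
    Submodule.mem_bot] at hmem
  exact sub_eq_zero.mp hmem

theorem natCast_pow_mem {lam : ℕ} (hlam : (lam : O) ∈ IsLocalRing.maximalIdeal O) (n : ℕ) :
    ((lam ^ n : ℕ) : O ⧸ IsLocalRing.maximalIdeal O ^ n) = 0 := by
  rw [← map_natCast (Ideal.Quotient.mk (IsLocalRing.maximalIdeal O ^ n)),
    Ideal.Quotient.eq_zero_iff_mem, Nat.cast_pow]
  exact Ideal.pow_mem_pow hlam n

end adic

end Fermat.Agent.CondLevel
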