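/-
An element of order two of `Gal(Q̄/ℚ)` inverts every root of unity of odd order.
(The elementary half of the Artin–Schreier theorem.)
-/
import Mathlib.FieldTheory.IsAlgClosed.AlgebraicClosure
import Mathlib.Algebra.Ring.GeomSum
import Mathlib.Tactic.LinearCombination

set_option autoImplicit false

namespace Fermat.Agent.CondLevel

variable {K : Type*} [Field K] [IsAlgClosed K]

theorem involution_map_ne_self_of_sq_eq_neg_one (h2 : (2 : K) ≠ 0) (c : K →+* K)
    (hcc : ∀ x, c (c x) = x) (hc : ∃ x, c x ≠ x) {I : K} (hI : I ^ 2 = -1) : c I ≠ I := by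
  intro hcI
  obtain ⟨x, hx⟩ := hc
  obtain ⟨z, hz⟩ := IsAlgClosed.exists_pow_nat_eq (k := K) (x - c x) (n := 2) two_pos
  have hy : x - c x ≠ 0 := sub_ne_zero.mpr (Ne.symm hx)
  have hz0 : z ≠ 0 := fun h => hy (by rw [← hz, h]; ring)
  have hcz : (c z) ^ 2 = (I * z) ^ 2 := by
    rw [← map_pow, hz, map_sub, hcc, mul_pow, hI, hz]; ring
  have hneg : z = -z := by
    rcases sq_eq_sq_iff_eq_or_eq_neg.mp hcz with h | h
    · have h' := congrArg c h
      rw [hcc, map_mul, hcI, h] at h'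
      linear_combination h' + z * hI
    · have h' := congrArg c h
      rw [hcc, map_neg, map_mul, hcI, h] at h'
      linear_combination h' + z * hI
  refine hz0 ((mul_eq_zero.mp (?_ : (2 : K) * z = 0)).resolve_left h2)
  linear_combination hneg

theorem exists_fixed_sq_eq_add_sq (c : K →+* K) (hcc : ∀ x, c (c x) = x) {I : K}
    (hI : I ^ 2 = -1) (hcI : c I = -I) {x y : K} (hx : c x = x) (hy : c y = y) :
    ∃ u, c u = u ∧ u ^ 2 = x ^ 2 + y ^ 2 := by
  obtain ⟨v, hv⟩ := IsAlgClosed.exists_pow_nat_eq (k := K) (x + I * y) (n := 2) two_pos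
  refine ⟨v * c v, by rw [map_mul, hcc, mul_comm], ?_⟩
  rw [mul_pow, ← map_pow, hv, map_add, map_mul, hx, hy, hcI]
  linear_combination (-y ^ 2) * hI

theorem exists_fixed_sq_eq_sum_sq (c : K →+* K) (hcc : ∀ x, c (c x) = x) {I : K}
    (hI : I ^ 2 = -1) (hcI : c I = -I) {ι : Type*} (s : Finset ι) (f : ι → K)
    (hf : ∀ i ∈ s, c (f i) = f i) : ∃ u, c u = u ∧ u ^ 2 = ∑ i ∈ s, f i ^ 2 := by
  classical
  induction s using Finset.induction_on with
  | empty => exact ⟨0, map_zero c, by simp⟩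
  | insert a t hat ih =>
    obtain ⟨u, hu, hu2⟩ := ih fun i hi => hf i (Finset.mem_insert_of_mem hi)
    obtain ⟨w, hw, hw2⟩ :=
      exists_fixed_sq_eq_add_sq c hcc hI hcI (hf a (Finset.mem_insert_self a t)) hu
    exact ⟨w, hw, by rw [hw2, hu2, Finset.sum_insert hat]⟩

/-- An involution of an algebraically closed field inverts roots of unity of odd order. -/
theorem involution_map_mul_self_eq_one (h2 : (2 : K) ≠ 0) (c : K →+* K)
    (hcc : ∀ x, c (c x) = x) (hc : ∃ x, c x ≠ x) {n : ℕ} (hn : Odd n) {ζ : K} (hζ : ζ ^ n = 1) :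
    c ζ * ζ = 1 := by
  obtain ⟨m, rfl⟩ := hn
  set η := c ζ * ζ with hη
  have hfix : c η = η := by rw [hη, map_mul, hcc, mul_comm]
  have hpow : η ^ (2 * m + 1) = 1 := by rw [hη, mul_pow, ← map_pow, hζ, map_one, mul_one]
  by_contra hne
  obtain ⟨I, hI⟩ := IsAlgClosed.exists_pow_nat_eq (k := K) (-1 : K) (n := 2) two_pos
  have hcI : c I = -I := by
    have h : (c I) ^ 2 = I ^ 2 := by rw [← map_pow, hI, map_neg, map_one]
    rcases sq_eq_sq_iff_eq_or_eq_neg.mp h with h' | h'
    · exact absurd h' (involution_map_ne_self_of_sq_eq_neg_one h2 c hcc hc hI)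
    · exact h'
  have hsum0 : ∑ j ∈ Finset.range (2 * m + 1), η ^ j = 0 := by
    have h := geom_sum_mul η (2 * m + 1)
    rw [hpow, sub_self] at h
    exact (mul_eq_zero.mp h).resolve_right (sub_ne_zero.mpr hne)
  obtain ⟨u, hu, hu2⟩ := exists_fixed_sq_eq_sum_sq c hcc hI hcI (Finset.range (2 * m))
    (fun j => η ^ ((m + 1) * (j + 1))) (fun j _ => by rw [map_pow, hfix])
  have hu' : u ^ 2 = -1 := by
    rw [hu2, eq_neg_iff_add_eq_zero, ← hsum0, Finset.sum_range_succ', pow_zero]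
    refine congrArg (· + 1) (Finset.sum_congr rfl fun j _ => ?_)
    rw [← pow_mul, show (m + 1) * (j + 1) * 2 = (2 * m + 1) * (j + 1) + (j + 1) by ring, pow_add,
      pow_mul, hpow, one_pow, one_mul]
  exact involution_map_ne_self_of_sq_eq_neg_one h2 c hcc hc hu' hu

end Fermat.Agent.CondLevel
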