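/-
A `λ`-adic representation with the Frobenius traces of an elliptic curve is, to every finite
order, the representation on the torsion of the curve.
-/
import Fermat.Agent.CondLevel.Compare
import Fermat.Agent.CondLevel.Involution
import Fermat.Agent.EC.Torsion
import Fermat.Agent.ECRed.Rat
import Fermat.Agent.Weil.DetCyclotomic
import Fermat.Prelude.Def_FLTPrelim_ModularRep
import Fermat.Prelude.Def_GaloisRep_ComplexConjugation

set_option autoImplicit false

open WeierstrassCurve Polynomial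
open scoped WeierstrassCurve.Affine

namespace Fermat.Agent.CondLevel

local notation "Γℚ" => AlgebraicClosure ℚ ≃ₐ[ℚ] AlgebraicClosure ℚ
local notation "Qbar" => AlgebraicClosure ℚ

/-- The `M`-torsion of an integral Weierstrass curve over `Q̄`. -/
abbrev Tors (W : WeierstrassCurve ℤ) (M : ℕ) : Type :=
  Submodule.torsionBy ℤ (((W.map (Int.castRingHom ℚ))⁄(AlgebraicClosure ℚ)).Point) (M : ℤ)

/-- The Galois representation on the `M`-torsion. -/
noncomputable abbrev torsRep (W : WeierstrassCurve ℤ) (M : ℕ) :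
    Γℚ →* Module.End (ZMod M) (Tors W M) :=
  Affine.Point.galoisRepModuleEnd (K := AlgebraicClosure ℚ) ℚ (W.map (Int.castRingHom ℚ)) M

variable {W : WeierstrassCurve ℤ} {O : Type} [CommRing O] [IsLocalRing O]

/-- The representation has, at almost all primes, the Frobenius traces and determinants of the
curve. -/
def FrobMatches (W : WeierstrassCurve ℤ) (ρ : GaloisRepAdic O) (T : Finset ℕ) : Prop :=
  ∀ ℓ : ℕ, ℓ.Prime → ℓ ∉ T → ∀ A : ValuationSubring Qbar, A.LiesOverPrime ℓ →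
    ∀ σ : Γℚ, A.IsFrobeniusAt σ ℓ →
      ρ.trace σ = (W.apOfModel ℓ : O) ∧ LinearMap.det (ρ.ρ σ) = (ℓ : O)

theorem isElliptic_map (hΔ : W.Δ ≠ 0) : (W.map (Int.castRingHom ℚ)).IsElliptic := by
  rw [isElliptic_iff, map_Δ, isUnit_iff_ne_zero, eq_intCast, Int.cast_ne_zero]
  exact hΔ

theorem isElliptic_baseChange (hΔ : W.Δ ≠ 0) :
    ((W.map (Int.castRingHom ℚ))⁄(AlgebraicClosure ℚ)).IsElliptic := by
  have := isElliptic_map hΔ
  infer_instance

theorem exists_torsBasis (hΔ : W.Δ ≠ 0) {M : ℕ} (hM : M ≠ 0) :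
    Nonempty (Module.Basis (Fin 2) (ZMod M) (Tors W M)) := by
  have := isElliptic_baseChange hΔ
  obtain ⟨e⟩ := EC.nonempty_torsionBy_linearEquiv (K := AlgebraicClosure ℚ)
    (W := W.map (Int.castRingHom ℚ)) (n := M) (Nat.cast_ne_zero.mpr hM)
  exact ⟨Module.Basis.ofEquivFun e⟩

theorem frobenius_tors {M p k : ℕ} (hM : M = p ^ k) (hp : p.Prime) {ℓ : ℕ} (hℓ : ℓ.Prime)
    (hne : p ≠ ℓ) (hg : W.IsGoodPrimeFor ℓ) {A : ValuationSubring Qbar}
    (hA : A.LiesOverPrime ℓ) {σ : Γℚ} (hσ : A.IsFrobeniusAt σ ℓ) :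
    LinearMap.trace (ZMod M) (Tors W M) (torsRep W M σ) = (W.apOfModel ℓ : ZMod M) ∧
      LinearMap.det (torsRep W M σ) = (ℓ : ZMod M) := by
  subst hM
  exact ⟨ECRed.galoisTrace_frobenius hℓ hA hg hσ hp hne, ECRed.det_frobenius hℓ hA hg hσ hp hne⟩

/-- The matrices of the action on `M`-torsion, pushed to a ring in which `M = 0`. -/
noncomputable def torsMatrixRep {M : ℕ} (b : Module.Basis (Fin 2) (ZMod M) (Tors W M))
    {R : Type*} [CommRing R] (φ : ZMod M →+* R) : Γℚ →* Matrix (Fin 2) (Fin 2) R :=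
  φ.mapMatrix.toMonoidHom.comp (matrixRep b (torsRep W M))

theorem trace_det_torsMatrixRep {M : ℕ} (b : Module.Basis (Fin 2) (ZMod M) (Tors W M))
    {R : Type*} [CommRing R] (φ : ZMod M →+* R) (σ : Γℚ) :
    (torsMatrixRep b φ σ).trace = φ (LinearMap.trace (ZMod M) (Tors W M) (torsRep W M σ)) ∧
      (torsMatrixRep b φ σ).det = φ (LinearMap.det (torsRep W M σ)) := by
  have h : torsMatrixRep b φ σ = φ.mapMatrix (LinearMap.toMatrix b b (torsRep W M σ)) := rfl
  rw [h, LinearMap.trace_eq_matrix_trace (ZMod M) b, ← LinearMap.det_toMatrix b, RingHom.map_det]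
  exact ⟨(AddMonoidHom.map_trace φ _).symm, rfl⟩

/-- Congruence of traces and determinants with the action on `p^k`-torsion. -/
theorem adicMatrixRep_congr (hΔ : W.Δ ≠ 0) (ρ : GaloisRepAdic O) {T : Finset ℕ}
    (hρ : FrobMatches W ρ T) {p : ℕ} (hp : p.Prime) {n k M : ℕ} (hM : M = p ^ k)
    (b : Module.Basis (Fin 2) (ZMod M) (Tors W M))
    (φ : ZMod M →+* O ⧸ IsLocalRing.maximalIdeal O ^ n) (σ : Γℚ) :
    (adicMatrixRep ρ (IsLocalRing.maximalIdeal O ^ n) σ).trace = (torsMatrixRep b φ σ).trace ∧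
      (adicMatrixRep ρ (IsLocalRing.maximalIdeal O ^ n) σ).det = (torsMatrixRep b φ σ).det := by
  have := isElliptic_baseChange hΔ
  have hM0 : M ≠ 0 := hM ▸ pow_ne_zero k hp.ne_zero
  obtain ⟨L₁, hL₁, h₁⟩ := ρ.isAdicContinuous n
  obtain ⟨L₂, hL₂, h₂⟩ := EC.galoisFactorsThroughFiniteLevel (W.map (Int.castRingHom ℚ)) hM0
  refine trace_det_eq_of_frobenius _ _ (L₁ ⊔ L₂) ?_ ?_
    (T ∪ W.Δ.natAbs.primeFactors ∪ {p}) ?_ σ
  · exact fun τ hτ => adicMatrixRep_eq_one ρ (h₁ τ fun x hx => hτ x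
      ((le_sup_left : L₁ ≤ L₁ ⊔ L₂) hx))
  · intro τ hτ
    have h := h₂ τ fun x hx => hτ x ((le_sup_right : L₂ ≤ L₁ ⊔ L₂) hx)
    simp only [torsMatrixRep, MonoidHom.comp_apply, matrixRep]
    rw [show torsRep W M τ = 1 from h, map_one, map_one]
  · intro ℓ hℓ hℓS A hA τ hτ
    simp only [Finset.mem_union, Finset.mem_singleton, not_or] at hℓS
    have hg : W.IsGoodPrimeFor ℓ := fun hdvd => hℓS.1.2 <| Nat.mem_primeFactors.mpr
      ⟨hℓ, Int.natCast_dvd.mp hdvd, Int.natAbs_ne_zero.mpr hΔ⟩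
    obtain ⟨ht, hd⟩ := hρ ℓ hℓ hℓS.1.1 A hA τ hτ
    obtain ⟨ht', hd'⟩ := frobenius_tors hM hp hℓ (Ne.symm hℓS.2) hg hA hτ
    obtain ⟨e₁, e₂⟩ := trace_det_torsMatrixRep b φ τ
    rw [trace_adicMatrixRep, det_adicMatrixRep, e₁, e₂, ht, hd, ht', hd', map_intCast,
      map_intCast, map_natCast, map_natCast]
    exact ⟨rfl, rfl⟩

section

variable [IsNoetherianRing O]

/-- A `λ`-adic representation matching the curve has the curve's characteristic polynomial at
Frobenius elements of every good prime `ℓ ≠ λ`. -/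
theorem trace_det_frobenius_of_frobMatches (hΔ : W.Δ ≠ 0) (ρ : GaloisRepAdic O) {T : Finset ℕ}
    (hρ : FrobMatches W ρ T) {p : ℕ} (hp : p.Prime) (hpO : (p : O) ∈ IsLocalRing.maximalIdeal O)
    {ℓ : ℕ} (hℓ : ℓ.Prime) (hne : p ≠ ℓ) (hg : W.IsGoodPrimeFor ℓ) {A : ValuationSubring Qbar}
    (hA : A.LiesOverPrime ℓ) {σ : Γℚ} (hσ : A.IsFrobeniusAt σ ℓ) :
    ρ.trace σ = (W.apOfModel ℓ : O) ∧ LinearMap.det (ρ.ρ σ) = (ℓ : O) := by
  refine ⟨eq_of_forall_quotient_mk_eq fun n => ?_, eq_of_forall_quotient_mk_eq fun n => ?_⟩ <;>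
  · obtain ⟨b⟩ := exists_torsBasis hΔ (pow_ne_zero n hp.ne_zero)
    set φ := zmodHom (p ^ n) (natCast_pow_mem hpO n)
    obtain ⟨e₁, e₂⟩ := adicMatrixRep_congr hΔ ρ hρ hp rfl b φ σ
    obtain ⟨ht, hd⟩ := frobenius_tors (M := p ^ n) rfl hp hℓ hne hg hA hσ
    obtain ⟨f₁, f₂⟩ := trace_det_torsMatrixRep b φ σ
    rw [trace_adicMatrixRep, f₁, ht, map_intCast] at e₁
    rw [det_adicMatrixRep, f₂, hd, map_natCast] at e₂
    first
      | rw [map_intCast]; exact e₁
      | rw [map_natCast]; exact e₂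

/-- If some element acts unipotently on all `p`-power torsion, it acts unipotently in `ρ`. -/
theorem trace_det_of_unipotent [IsDomain O] (hΔ : W.Δ ≠ 0) (ρ : GaloisRepAdic O)
    {T : Finset ℕ} (hρ : FrobMatches W ρ T) {p : ℕ} (hp : p.Prime)
    (hpO : (p : O) ∈ IsLocalRing.maximalIdeal O) (σ : Γℚ)
    (hu : ∀ n : ℕ, (torsRep W (p ^ n) σ - 1) * (torsRep W (p ^ n) σ - 1) = 0) :
    ρ.trace σ = 2 ∧ LinearMap.det (ρ.ρ σ) = 1 := by
  have key : ∀ n : ℕ,
      Ideal.Quotient.mk (IsLocalRing.maximalIdeal O ^ n) ((ρ.trace σ - 2) ^ 4) = 0 ∧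
      Ideal.Quotient.mk (IsLocalRing.maximalIdeal O ^ n)
        ((LinearMap.det (ρ.ρ σ) - ρ.trace σ + 1) ^ 2) = 0 := by
    intro n
    obtain ⟨b⟩ := exists_torsBasis hΔ (pow_ne_zero n hp.ne_zero)
    set φ := zmodHom (p ^ n) (natCast_pow_mem hpO n)
    obtain ⟨e₁, e₂⟩ := adicMatrixRep_congr hΔ ρ hρ hp rfl b φ σ
    have hB : (torsMatrixRep b φ σ - 1) * (torsMatrixRep b φ σ - 1) = 0 := by
      have h := congrArg (fun f => φ.mapMatrix (LinearMap.toMatrixAlgEquiv b f)) (hu n)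
      simp only [map_mul, map_sub, map_one, map_zero] at h
      exact h
    obtain ⟨h₁, h₂⟩ := matrix2_of_sub_one_sq_eq_zero hB
    rw [trace_adicMatrixRep] at e₁
    rw [det_adicMatrixRep] at e₂
    rw [map_pow, map_pow, map_sub, map_add, map_sub, map_one, map_ofNat, e₁, e₂]
    exact ⟨h₁, h₂⟩
  have h1 : (ρ.trace σ - 2) ^ 4 = 0 := eq_of_forall_quotient_mk_eq fun n => by
    rw [map_zero]; exact (key n).1
  have h2 : (LinearMap.det (ρ.ρ σ) - ρ.trace σ + 1) ^ 2 = 0 := eq_of_forall_quotient_mk_eq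
    fun n => by rw [map_zero]; exact (key n).2
  have h1' := sub_eq_zero.mp (pow_eq_zero_iff (by norm_num : (4 : ℕ) ≠ 0) |>.mp h1)
  have h2' := pow_eq_zero_iff (by norm_num : (2 : ℕ) ≠ 0) |>.mp h2
  exact ⟨h1', by rw [h1'] at h2'; linear_combination h2'⟩

theorem charpoly_eq_sq_of_unipotent [IsDomain O] (hΔ : W.Δ ≠ 0) (ρ : GaloisRepAdic O)
    {T : Finset ℕ} (hρ : FrobMatches W ρ T) {p : ℕ} (hp : p.Prime)
    (hpO : (p : O) ∈ IsLocalRing.maximalIdeal O) (σ : Γℚ)
    (hu : ∀ n : ℕ, (torsRep W (p ^ n) σ - 1) * (torsRep W (p ^ n) σ - 1) = 0) :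
    LinearMap.charpoly (ρ.ρ σ) = (X - 1) ^ 2 := by
  obtain ⟨ht, hd⟩ := trace_det_of_unipotent hΔ ρ hρ hp hpO σ hu
  rw [GaloisRepAdic.trace] at ht
  rw [charpoly_eq_of_trace_det (adicBasis ρ), ht, hd, map_ofNat, map_one]
  ring

end

theorem exists_involution : ∃ c : Γℚ, c * c = 1 ∧ c ≠ 1 := by
  refine ⟨_root_.complexConjugation, complexConjugation_mul_self, fun h => ?_⟩
  obtain ⟨x, hx⟩ := IsAlgClosed.exists_pow_nat_eq (k := Qbar) (-1) (n := 2) two_pos
  have hconj := complexEmbedding_complexConjugation x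
  rw [h, AlgEquiv.one_apply] at hconj
  have hsq : complexEmbedding x ^ 2 = -1 := by rw [← map_pow, hx, map_neg, map_one]
  have him : (complexEmbedding x).im = 0 := Complex.conj_eq_iff_im.mp hconj.symm
  have hre := congrArg Complex.re hsq
  rw [sq, Complex.mul_re, him, mul_zero, sub_zero, Complex.neg_re, Complex.one_re] at hre
  nlinarith [mul_self_nonneg (complexEmbedding x).re]

/-- An element of order two has determinant `-1` on `E[p]`, `p` odd. -/
theorem det_torsRep_involution (hΔ : W.Δ ≠ 0) {p : ℕ} [Fact p.Prime] (hp2 : p ≠ 2) (c : Γℚ)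
    (hcc : c * c = 1) (hc : c ≠ 1) : LinearMap.det (torsRep W p c) = -1 := by
  have := isElliptic_map hΔ
  have hn := Weil.card_rootsOfUnity_Qbar p
  rw [Weil.det_galoisRepModuleEnd (W.map (Int.castRingHom ℚ)) p hn c]
  have hodd : Odd p := (Fact.out : p.Prime).odd_of_ne_two hp2
  have hex : ∃ x, c x ≠ x := by
    by_contra h
    push Not at h
    exact hc (AlgEquiv.ext h)
  refine ((modularCyclotomicCharacter.unique (AlgebraicClosure ℚ) hn (c : Qbar ≃+* Qbar)
    (c := (-1 : ZMod p)) ?_).symm)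
  intro t ht
  have htp : (t : Qbar) ^ p = 1 := by
    rw [← Units.val_pow_eq_pow_val, (mem_rootsOfUnity p t).mp ht, Units.val_one]
  have h := involution_map_mul_self_eq_one (two_ne_zero) (c.toAlgHom.toRingHom)
    (fun x => by
      show c (c x) = x
      rw [← AlgEquiv.mul_apply, hcc, AlgEquiv.one_apply]) hex hodd htp
  have hv : (-1 : ZMod p).val = p - 1 := by
    obtain ⟨q, rfl⟩ : ∃ q, p = q + 1 := ⟨p - 1, by have := (Fact.out : p.Prime).pos; omega⟩
    simp [ZMod.val_neg_one]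
  rw [hv]
  refine mul_right_cancel₀ t.ne_zero (h.trans ?_)
  rw [← pow_succ, Nat.sub_add_cancel (Fact.out : p.Prime).pos, htp]

/-- If the mod `p` representation of the curve is irreducible (`p` odd), the residual
representation of a matching `p`-adic representation is absolutely irreducible and odd. -/
theorem residual_absIrred_odd (hΔ : W.Δ ≠ 0) (ρ : GaloisRepAdic O) {T : Finset ℕ}
    (hρ : FrobMatches W ρ T) {p : ℕ} [Fact p.Prime] (hp2 : p ≠ 2)
    (hpO : (p : O) ∈ IsLocalRing.maximalIdeal O) (hirr : W.ModRepIsIrreducible p) :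
    ρ.residual.IsAbsolutelyIrreducible ∧ ρ.residual.IsOdd := by
  have hp : p.Prime := Fact.out
  obtain ⟨b⟩ := exists_torsBasis hΔ hp.ne_zero
  have hM : ((p : ℕ) : O ⧸ IsLocalRing.maximalIdeal O ^ 1) = 0 := by
    simpa using natCast_pow_mem hpO 1
  set φ := zmodHom p hM
  set π : O ⧸ IsLocalRing.maximalIdeal O ^ 1 →+* IsLocalRing.ResidueField O :=
    Ideal.Quotient.factor (pow_one (IsLocalRing.maximalIdeal O)).le with hπ
  have hπmk : ∀ x, π (Ideal.Quotient.mk _ x) = IsLocalRing.residue O x := fun x => rfl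
  have hcongr : ∀ σ : Γℚ,
      LinearMap.trace _ _ (ρ.residual.ρ σ) = π (φ (LinearMap.trace _ _ (torsRep W p σ))) ∧
      LinearMap.det (ρ.residual.ρ σ) = π (φ (LinearMap.det (torsRep W p σ))) := by
    intro σ
    obtain ⟨e₁, e₂⟩ := adicMatrixRep_congr hΔ ρ hρ hp (pow_one p).symm b φ σ
    obtain ⟨f₁, f₂⟩ := trace_det_torsMatrixRep b φ σ
    rw [trace_adicMatrixRep, f₁] at e₁
    rw [det_adicMatrixRep, f₂] at e₂
    rw [← e₁, ← e₂, hπmk, hπmk]
    exact ⟨LinearMap.trace_baseChange (ρ.ρ σ) _, LinearMap.det_baseChange (ρ.ρ σ)⟩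
  have hdet : ∀ c : Γℚ, c * c = 1 → c ≠ 1 → LinearMap.det (ρ.residual.ρ c) = -1 := fun c hcc hc => by
    rw [(hcongr c).2, det_torsRep_involution hΔ hp2 c hcc hc]
    simp
  refine ⟨?_, hdet⟩
  have hchar : ((p : ℕ) : IsLocalRing.ResidueField O) = 0 := by
    rw [← map_natCast (IsLocalRing.residue O), IsLocalRing.residue_eq_zero_iff]
    exact hpO
  have h2 : (2 : IsLocalRing.ResidueField O) ≠ 0 := by
    intro h
    obtain ⟨m, hm⟩ := hp.odd_of_ne_two hp2
    rw [hm] at hchar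
    simp [h] at hchar
  have h2p : (2 : ZMod p) ≠ 0 := by
    intro h
    exact h2 (by simpa only [map_ofNat, map_zero] using congrArg (π.comp φ) h)
  obtain ⟨c, hcc, hc⟩ := exists_involution
  have hfin : Module.finrank (ZMod p) (Tors W p) = 2 := by
    simpa using Module.finrank_eq_card_basis b
  obtain ⟨σ, τ, hne⟩ := exists_oddOffDiag_ne_zero h2p hfin (torsRep W p) hcc
    (det_torsRep_involution hΔ hp2 c hcc hc) hirr.2
  set ψ : ZMod p →+* AlgebraicClosure (IsLocalRing.ResidueField O) :=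
    (algebraMap (IsLocalRing.ResidueField O) _).comp (π.comp φ) with hψ
  intro U hU
  refine irreducible_of_oddOffDiag_ne_zero (σ := σ) (τ := τ) (c := c) ?_ ?_
    ((ρ.residual.baseChange (AlgebraicClosure (IsLocalRing.ResidueField O))).ρ) hcc ?_ ?_ U hU
  · intro h
    exact h2 ((algebraMap (IsLocalRing.ResidueField O)
      (AlgebraicClosure (IsLocalRing.ResidueField O))).injective
        (by simpa only [map_ofNat, map_zero] using h))
  · exact (ρ.residual.baseChange _).finrank_eq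
  · show LinearMap.det ((ρ.residual.ρ c).baseChange
      (AlgebraicClosure (IsLocalRing.ResidueField O))) = -1
    rw [LinearMap.det_baseChange, hdet c hcc hc, map_neg, map_one]
  · have heq : ∀ g : Γℚ, LinearMap.trace _ _
        ((ρ.residual.baseChange (AlgebraicClosure (IsLocalRing.ResidueField O))).ρ g) =
          ψ (LinearMap.trace _ _ (torsRep W p g)) := fun g => by
      show LinearMap.trace _ _ ((ρ.residual.ρ g).baseChange
        (AlgebraicClosure (IsLocalRing.ResidueField O))) = _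
      rw [LinearMap.trace_baseChange, (hcongr g).1]
      rfl
    simp only [heq]
    rw [← map_oddOffDiag ψ]
    exact (map_ne_zero_iff ψ ψ.injective).mpr hne

end Fermat.Agent.CondLevel
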