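/-
The trivial bound on the number of points of a Weierstrass curve over `𝔽_ℓ`.
-/
import Fermat.Prelude.Def_FLTPrelim_Modularity
import Mathlib.Algebra.Field.ZMod

set_option autoImplicit false

namespace Fermat.Agent.CondLevel

open WeierstrassCurve

theorem natCard_point_le {F : Type*} [Field F] [Finite F] (E : WeierstrassCurve F) :
    Nat.card E.toAffine.Point ≤ 2 * Nat.card F + 1 := by
  classical
  let y₀ : F → F := fun x => Classical.epsilon fun y => E.toAffine.Equation x y
  let f : E.toAffine.Point → Option (F × Bool) := fun P =>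
    match P with
    | .zero => none
    | .some x y _ => some (x, decide (y = y₀ x))
  have hf : Function.Injective f := by
    rintro (_ | ⟨x, y, h⟩) (_ | ⟨x', y', h'⟩) hPQ <;>
      simp only [f, reduceCtorEq, Option.some.injEq, Prod.mk.injEq] at hPQ
    · rfl
    · obtain ⟨rfl, hd⟩ := hPQ
      have h0 : E.toAffine.Equation x (y₀ x) :=
        Classical.epsilon_spec (p := fun y => E.toAffine.Equation x y) ⟨y, h.1⟩
      by_cases hy : y = y₀ x
      · have hy' : y' = y₀ x := by simpa [hy] using hd
        subst hy hy'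
        rfl
      · have hy' : y' ≠ y₀ x := by simpa [hy] using hd
        obtain rfl : y = y' :=
          ((Affine.Y_eq_of_X_eq h.1 h0 rfl).resolve_left hy).trans
            ((Affine.Y_eq_of_X_eq h'.1 h0 rfl).resolve_left hy').symm
        rfl
  have := Fintype.ofFinite F
  refine (Nat.card_le_card_of_injective f hf).trans ?_
  simp [Nat.card_eq_fintype_card, Fintype.card_prod, mul_comm]

/-- `a_ℓ` of an integral model is never `±(ℓ + 1)`. -/
theorem apOfModel_ne_add_one (W : WeierstrassCurve ℤ) {ℓ : ℕ} (hℓ : ℓ.Prime) :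
    W.apOfModel ℓ ≠ (ℓ : ℤ) + 1 ∧ W.apOfModel ℓ ≠ -((ℓ : ℤ) + 1) := by
  haveI : Fact ℓ.Prime := ⟨hℓ⟩
  have hle := natCard_point_le (W.reductionMod ℓ)
  haveI : Nonempty (W.reductionMod ℓ).toAffine.Point := ⟨.zero⟩
  have hpos : 0 < Nat.card (W.reductionMod ℓ).toAffine.Point := Nat.card_pos
  rw [Nat.card_zmod] at hle
  unfold WeierstrassCurve.apOfModel WeierstrassCurve.traceOfFrobenius WeierstrassCurve.card
  rw [Nat.card_zmod]
  constructor <;> omega

end Fermat.Agent.CondLevel
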