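/-
A normalised eigenform of level `M ∣ N` has a normalised eigenform of level `N` with the same
eigenvalues at the primes not dividing `N`.
-/
import Fermat.Agent.Eigen.EigenHom
import Fermat.Agent.Newform.Degeneracy

set_option autoImplicit false

noncomputable section

open CongruenceSubgroup ModularFormClass

namespace Fermat.Agent.CondLevel

theorem exists_eigenform_of_dvd {M N : ℕ} [NeZero N] (h : M ∣ N)
    {g : CuspForm (Gamma0 M) 2} (hg : g.IsNormalizedEigenform) :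
    ∃ f : CuspForm (Gamma0 N) 2, f.IsNormalizedEigenform ∧
      ∀ ℓ : ℕ, ℓ.Prime → ¬ ℓ ∣ N → qCoeff f ℓ = qCoeff g ℓ := by
  classical
  have := Eigen.finiteDimensional_cuspForm N 2
  let A : CuspForm.heckeAlgebra N 2 ∅ → Module.End ℂ (Eigen.S2 N) := fun t =>
    (t : Module.End ℂ (Eigen.S2 N))
  have hcomm : ∀ s t, Commute (A s) (A t) := fun s t =>
    (Commute.all s t).map (CuspForm.heckeAlgebra N 2 ∅).val
  let E : Submodule ℂ (Eigen.S2 N) := ⨅ (ℓ : ℕ) (hℓ : ℓ.Prime) (hℓN : ¬ ℓ ∣ N),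
    Module.End.eigenspace (CuspForm.heckeTLin 2 hℓ hℓN) (qCoeff g ℓ)
  have hE : ∀ x, x ∈ E ↔ ∀ (ℓ : ℕ) (hℓ : ℓ.Prime) (hℓN : ¬ ℓ ∣ N),
      CuspForm.heckeTLin 2 hℓ hℓN x = qCoeff g ℓ • x := fun x => by
    simp only [E, Submodule.mem_iInf, Module.End.mem_eigenspace_iff]
  set g' : Eigen.S2 N := Newform.levelInclusion 2 h g with hg'
  have hg'E : g' ∈ E := by
    refine (hE g').mpr fun ℓ hℓ hℓN => ?_
    rw [hg', Newform.levelInclusion, Newform.heckeTLin_degeneracy,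
      Eigen.heckeTLin_eigenform hg, map_smul]
  have hg'0 : g' ≠ 0 := fun h0 => by
    have h1 := Newform.qCoeff_levelInclusion 2 h g 1
    rw [← hg', h0, hg.qCoeff_one, Eigen.qCoeff_form_zero] at h1
    exact zero_ne_one h1
  obtain ⟨v, hvE, hv0, μ, hμ⟩ := Eigen.exists_joint_eigen_mem A hcomm E
    ((Submodule.ne_bot_iff E).mpr ⟨g', hg'E, hg'0⟩) fun s x hx => (hE _).mpr fun ℓ hℓ hℓN => by
      have hc : Commute (CuspForm.heckeTLin 2 hℓ hℓN) (A s) :=
        hcomm (CuspForm.heckeAlgebra.T hℓ hℓN (Set.notMem_empty ℓ)) s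
      calc CuspForm.heckeTLin 2 hℓ hℓN (A s x) = A s (CuspForm.heckeTLin 2 hℓ hℓN x) :=
            LinearMap.congr_fun hc.eq x
        _ = qCoeff g ℓ • A s x := by rw [(hE x).mp hx ℓ hℓ hℓN, map_smul]
  let a : ℕ → ℂ := fun p =>
    if hp : p.Prime then
      if hpN : p ∣ N then μ (CuspForm.heckeAlgebra.U hp hpN (Set.notMem_empty p))
      else μ (CuspForm.heckeAlgebra.T hp hpN (Set.notMem_empty p))
    else 0
  have hT : ∀ (p : ℕ) (hp : p.Prime) (hpN : ¬ p ∣ N),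
      CuspForm.heckeTLin 2 hp hpN v = a p • v := fun p hp hpN => by
    simpa [a, A, hp, hpN] using hμ (CuspForm.heckeAlgebra.T hp hpN (Set.notMem_empty p))
  have hU : ∀ (p : ℕ) (_ : p.Prime) (hpN : p ∣ N),
      CuspForm.heckeULin 2 hpN v = a p • v := fun p hp hpN => by
    simpa [a, A, hp, hpN] using hμ (CuspForm.heckeAlgebra.U hp hpN (Set.notMem_empty p))
  have h1 := Eigen.qCoeff_one_ne_zero hT hU hv0
  set f : Eigen.S2 N := (qCoeff v 1)⁻¹ • v with hfdef
  have hf : f.IsNormalizedEigenform := Eigen.isNormalizedEigenform_of_eigen (a := a)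
    (fun p hp hpN => by rw [hfdef, map_smul, hT, smul_comm])
    (fun p hp hpN => by rw [hfdef, map_smul, hU p hp hpN, smul_comm])
    (by rw [hfdef, Eigen.qCoeff_smul, inv_mul_cancel₀ h1])
  refine ⟨f, hf, fun ℓ hℓ hℓN => smul_left_injective ℂ (Eigen.eigenform_ne_zero hf) ?_⟩
  change qCoeff f ℓ • f = qCoeff g ℓ • f
  rw [← Eigen.heckeTLin_eigenform hf hℓ hℓN, hfdef, map_smul, (hE v).mp hvE ℓ hℓ hℓN, smul_comm]

end Fermat.Agent.CondLevel
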