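/-
Conductor–level matching (S58), from the statements on representations attached to newforms.
-/
import Fermat.Agent.CondLevel.Curve
import Fermat.Agent.CondLevel.AdicTarget
import Fermat.Agent.CondLevel.Raise
import Fermat.Agent.CondLevel.PointCount
import Fermat.Agent.CondLevel.Statements
import Fermat.Agent.Newform.Descent
import Fermat.Agent.Mult.Main
import Fermat.Agent.Galois.Frobenius
import Fermat.Prelude.Def_WeierstrassCurve_ConductorLevel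

set_option autoImplicit false

open WeierstrassCurve Polynomial ModularFormClass
open scoped WeierstrassCurve.Affine

namespace Fermat.Agent.CondLevel

local notation "Γℚ" => AlgebraicClosure ℚ ≃ₐ[ℚ] AlgebraicClosure ℚ
local notation "Qbar" => AlgebraicClosure ℚ

/-- The input from S22. -/
def HeckeFiniteStatement : Prop :=
  ∀ (N : ℕ) [NeZero N] (S : Set ℕ), Module.Finite ℤ (CuspForm.heckeAlgebra N 2 S)

theorem ringHom_injective_of_finite {R O : Type*} [CommRing R] [IsDomain R] [CharZero R]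
    [Module.Finite ℤ R] [CommRing O] [IsDomain O] [CharZero O] (f : R →+* O) :
    Function.Injective f := by
  have : Algebra.IsIntegral ℤ R := Algebra.IsIntegral.of_finite ℤ R
  rw [RingHom.injective_iff_ker_eq_bot]
  refine Ideal.eq_bot_of_comap_eq_bot (R := ℤ) ?_
  refine eq_bot_iff.mpr fun n hn => ?_
  simpa using hn

/-- What one application of the statement on representations attached to newforms gives,
specialised to a form with the eigenvalues of a curve. -/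
theorem frobMatches_of_charpoly {W : WeierstrassCurve ℤ} {M N : ℕ} [NeZero M] (hMN : M ∣ N)
    (hN0 : N ≠ 0) {g : CuspForm (CongruenceSubgroup.Gamma0 M) 2}
    (hgW : ∀ ℓ : ℕ, ℓ.Prime → ¬ ℓ ∣ N → qCoeff g ℓ = (W.apOfModel ℓ : ℂ))
    {S : Finset ℕ} {chig : CuspForm.heckeAlgebra M 2 (↑S : Set ℕ) →+* ℂ}
    (hchig : ∀ (ℓ : ℕ) (hℓ : ℓ.Prime) (hℓM : ¬ ℓ ∣ M) (hℓS : ℓ ∉ (↑S : Set ℕ)),
      chig (CuspForm.heckeAlgebra.T hℓ hℓM hℓS) = qCoeff g ℓ)
    {O' : Type} [CommRing O'] (iota : chig.range →+* O') {O'' : Type} [CommRing O'']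
    [IsLocalRing O''] [Algebra O' O''] (ρ : GaloisRepAdic O'') (lam : ℕ)
    (hρ : ∀ (ℓ : ℕ) (hℓ : ℓ.Prime) (_ : ℓ ≠ lam) (hℓM : ¬ ℓ ∣ M) (hℓS : ℓ ∉ (↑S : Set ℕ)),
      ∀ A : ValuationSubring Qbar, A.LiesOverPrime ℓ →
        ∀ σ : Γℚ, A.IsFrobeniusAt σ ℓ →
          LinearMap.charpoly (ρ.ρ σ) =
            X ^ 2 - C (algebraMap O' O''
                ((iota.comp chig.rangeRestrict) (CuspForm.heckeAlgebra.T hℓ hℓM hℓS))) * X
              + C ((ℓ : O''))) :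
    FrobMatches W ρ (S ∪ N.primeFactors ∪ {lam}) := by
  intro ℓ hℓ hℓT A hA σ hσ
  simp only [Finset.mem_union, Finset.mem_singleton, not_or] at hℓT
  have hℓN : ¬ ℓ ∣ N := fun h => hℓT.1.2 (Nat.mem_primeFactors.mpr ⟨hℓ, h, hN0⟩)
  have hℓM : ¬ ℓ ∣ M := fun h => hℓN (h.trans hMN)
  have hℓS : ℓ ∉ (↑S : Set ℕ) := fun h => hℓT.1.1 (Finset.mem_coe.mp h)
  refine trace_det_of_adic_charpoly_eq ρ σ ((hρ ℓ hℓ hℓT.2 hℓM hℓS A hA σ hσ).trans ?_)
  have hT : chig.rangeRestrict (CuspForm.heckeAlgebra.T hℓ hℓM hℓS) =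
      ((W.apOfModel ℓ : ℤ) : chig.range) :=
    Subtype.ext (by
      push_cast
      exact (hchig ℓ hℓ hℓM hℓS).trans (hgW ℓ hℓ hℓN))
  rw [RingHom.comp_apply, hT, map_intCast, map_intCast]

variable {W : WeierstrassCurve ℤ}

/-- A prime `ℓ` of good reduction does not exactly divide the level of a newform with the
eigenvalues of `W`, and if it does not divide the level the eigenvalue is `a_ℓ(W)`. -/
theorem good_prime_step (h35 : S35Statement) (hfin : HeckeFiniteStatement) (hΔ : W.Δ ≠ 0)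
    {M N : ℕ} [NeZero M] (hMN : M ∣ N) (hN0 : N ≠ 0)
    {g : CuspForm (CongruenceSubgroup.Gamma0 M) 2} (hg : g.IsNewform)
    (hgW : ∀ ℓ : ℕ, ℓ.Prime → ¬ ℓ ∣ N → qCoeff g ℓ = (W.apOfModel ℓ : ℂ))
    {ℓ : ℕ} (hℓ : ℓ.Prime) (hgood : W.IsGoodPrimeFor ℓ) :
    (ℓ ∣ M → ℓ ^ 2 ∣ M) ∧ (¬ ℓ ∣ M → qCoeff g ℓ = (W.apOfModel ℓ : ℂ)) := by
  obtain ⟨lam, hlam, hne⟩ : ∃ lam : ℕ, lam.Prime ∧ lam ≠ ℓ := by
    rcases eq_or_ne ℓ 2 with rfl | h
    · exact ⟨3, Nat.prime_three, by norm_num⟩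
    · exact ⟨2, Nat.prime_two, h.symm⟩
  haveI : Fact lam.Prime := ⟨hlam⟩
  set S : Finset ℕ := M.primeFactors ∪ {lam} with hS
  set chig := Eigen.eigenChar g hg.1 (↑S : Set ℕ) with hchig_def
  have hchig : ∀ (q : ℕ) (hq : q.Prime) (hqM : ¬ q ∣ M) (hqS : q ∉ (↑S : Set ℕ)),
      chig (CuspForm.heckeAlgebra.T hq hqM hqS) = qCoeff g q :=
    fun q hq hqM hqS => Eigen.eigenChar_T hg.1 hq hqM hqS
  haveI := hfin M (↑S : Set ℕ)
  haveI : Module.Finite ℤ chig.range :=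
    Module.Finite.of_surjective chig.rangeRestrict.toIntAlgHom.toLinearMap
      chig.rangeRestrict_surjective
  obtain ⟨O', _, _, _, _, _, _, iota, hlamO'⟩ := exists_adicTarget lam chig.range
  have hlamS : lam ∈ S := by simp [hS]
  have hMS : ∀ q : ℕ, q.Prime → q ∣ M → q ∈ S := fun q hq hqM =>
    Finset.mem_union_left _ (Nat.mem_primeFactors.mpr ⟨hq, hqM, NeZero.ne M⟩)
  obtain ⟨O'', _, _, _, _, _, _, _, _, _, hinj, ρ, hρ, hρbad⟩ :=
    h35 hg lam S O' hlamO' chig hchig iota hlamS hMS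
  have hmatch := frobMatches_of_charpoly hMN hN0 hgW hchig iota ρ lam
    (fun q hq _ hqM hqS => hρ q hq hqM hqS)
  have hlamO'' : (lam : O'') ∈ IsLocalRing.maximalIdeal O'' := by
    rw [← map_natCast (algebraMap O' O'')]
    exact map_nonunit (algebraMap O' O'') _ hlamO'
  obtain ⟨A, σ, hA, hσ⟩ : ∃ (A : ValuationSubring Qbar) (σ : Γℚ),
      A.LiesOverPrime ℓ ∧ A.IsFrobeniusAt σ ℓ :=
    Galois.exists_valuationSubring_isFrobeniusAt hℓ
  obtain ⟨ht, hd⟩ := trace_det_frobenius_of_frobMatches hΔ ρ hmatch hlam hlamO'' hℓ hne hgood hA hσ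
  constructor
  · intro hℓM
    by_contra h2
    obtain ⟨n1, n2⟩ := apOfModel_ne_add_one W hℓ
    rcases hρbad ℓ hℓ (Ne.symm hne) hℓM h2 A hA σ hσ with h | h
    · have h' := (trace_det_of_adic_charpoly_eq ρ σ h).1
      rw [ht] at h'
      exact n1 (Int.cast_injective (α := O'') (by rw [h']; push_cast; ring))
    · have h0 : LinearMap.charpoly (ρ.ρ σ) =
          X ^ 2 - C (-((ℓ : O'') + 1)) * X + C (ℓ : O'') := by
        rw [h, map_neg]; ring
      have h' := (trace_det_of_adic_charpoly_eq ρ σ h0).1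
      rw [ht] at h'
      exact n2 (Int.cast_injective (α := O'') (by rw [h']; push_cast; ring))
  · intro hℓM
    have hℓS : ℓ ∉ (↑S : Set ℕ) := by
      simp [hS, hℓ, hℓM, Ne.symm hne]
    have h' := (trace_det_of_adic_charpoly_eq ρ σ (hρ ℓ hℓ hℓM hℓS A hA σ hσ)).1
    rw [ht, ← map_intCast (algebraMap O' O'') (W.apOfModel ℓ)] at h'
    have h'' := hinj h'
    rw [RingHom.comp_apply, ← map_intCast iota] at h''
    have h3 := congrArg Subtype.val (ringHom_injective_of_finite iota h'')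
    simp only [RingHom.coe_rangeRestrict, SubringClass.coe_intCast] at h3
    rw [h3, hchig ℓ hℓ hℓM hℓS]

/-- The square of a prime at which `E[pⁿ]` has unipotent inertia does not divide the level. -/
theorem square_step (h36 : S36Statement) (hfin : HeckeFiniteStatement) (hΔ : W.Δ ≠ 0)
    {M N : ℕ} [NeZero M] (hMN : M ∣ N) (hN0 : N ≠ 0) (hN3 : ∀ q : ℕ, q.Prime → ¬ q ^ 3 ∣ N)
    {g : CuspForm (CongruenceSubgroup.Gamma0 M) 2} (hg : g.IsNewform)
    (hgW : ∀ ℓ : ℕ, ℓ.Prime → ¬ ℓ ∣ N → qCoeff g ℓ = (W.apOfModel ℓ : ℂ))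
    {p : ℕ} [Fact p.Prime] (hp2 : p ≠ 2) (hirr : W.ModRepIsIrreducible p)
    {ℓ : ℕ} (hℓ : ℓ.Prime) (hℓp : ℓ ≠ p)
    (hu : ∀ A : ValuationSubring Qbar, A.LiesOverPrime ℓ → ∀ σ ∈ A.inertiaSubgroupIn ℚ,
      ∀ n : ℕ, (torsRep W (p ^ n) σ - 1) * (torsRep W (p ^ n) σ - 1) = 0) :
    ¬ ℓ ^ 2 ∣ M := by
  intro hℓ2
  have hp : p.Prime := Fact.out
  set S : Finset ℕ := M.primeFactors ∪ {p} with hS
  set chig := Eigen.eigenChar g hg.1 (↑S : Set ℕ) with hchig_def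
  have hchig : ∀ (q : ℕ) (hq : q.Prime) (hqM : ¬ q ∣ M) (hqS : q ∉ (↑S : Set ℕ)),
      chig (CuspForm.heckeAlgebra.T hq hqM hqS) = qCoeff g q :=
    fun q hq hqM hqS => Eigen.eigenChar_T hg.1 hq hqM hqS
  haveI := hfin M (↑S : Set ℕ)
  haveI : Module.Finite ℤ chig.range :=
    Module.Finite.of_surjective chig.rangeRestrict.toIntAlgHom.toLinearMap
      chig.rangeRestrict_surjective
  obtain ⟨O', _, _, _, _, _, _, iota, hpO'⟩ := exists_adicTarget p chig.range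
  have hpS : p ∈ S := by simp [hS]
  have hMS : ∀ q : ℕ, q.Prime → q ∣ M → q ∈ S := fun q hq hqM =>
    Finset.mem_union_left _ (Nat.mem_primeFactors.mpr ⟨hq, hqM, NeZero.ne M⟩)
  have hmem : ∀ (O'' : Type) [CommRing O''] [IsLocalRing O''] [Algebra O' O'']
      [IsLocalHom (algebraMap O' O'')], (p : O'') ∈ IsLocalRing.maximalIdeal O'' := by
    intro O'' _ _ _ _
    rw [← map_natCast (algebraMap O' O'')]
    exact map_nonunit (algebraMap O' O'') _ hpO'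
  obtain ⟨O'', _, _, _, _, _, _, _, _, _, _, ρ, hρ, hρbad⟩ :=
    h36 hg p S O' hpO' hp2 chig hchig iota hpS hMS fun O'' _ _ _ _ _ _ _ _ _ _ ρ hρ =>
      residual_absIrred_odd hΔ ρ (frobMatches_of_charpoly hMN hN0 hgW hchig iota ρ p hρ) hp2
        (hmem O'') hirr
  have hmatch := frobMatches_of_charpoly hMN hN0 hgW hchig iota ρ p
    (fun q hq _ hqM hqS => hρ q hq hqM hqS)
  have hfac : M.factorization ℓ = 2 := by
    have h1 : 2 ≤ M.factorization ℓ :=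
      (hℓ.pow_dvd_iff_le_factorization (NeZero.ne M)).mp hℓ2
    have h2 : ¬ 3 ≤ M.factorization ℓ := fun h3 =>
      hN3 ℓ hℓ (((hℓ.pow_dvd_iff_le_factorization (NeZero.ne M)).mpr h3).trans hMN)
    omega
  exact hρbad ℓ hℓ hℓp hfac fun A hA σ hσ =>
    charpoly_eq_sq_of_unipotent hΔ ρ hmatch hp (hmem O'') σ (hu A hA σ hσ)

/-- **Conductor–level matching.** -/
theorem isModularModelOfLevel_conductorLevel (h35 : S35Statement) (h36 : S36Statement)
    (hfin : HeckeFiniteStatement)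
    (W : WeierstrassCurve ℤ) (hss : W.IsSemistableModel) (N : ℕ)
    (p : ℕ) [Fact p.Prime] (hp2 : p ≠ 2) (hirr : W.ModRepIsIrreducible p)
    (hp2N : ¬ p ^ 2 ∣ N)
    (hN : W.IsModularModelOfLevel N) (hbad : ∀ ℓ : ℕ, ℓ.Prime → (ℓ : ℤ) ∣ W.Δ → ℓ ∣ N)
    (hN3 : ∀ q : ℕ, q.Prime → ¬ q ^ 3 ∣ N) :
    W.IsModularModelOfLevel W.conductorLevel := by
  have hp : p.Prime := Fact.out
  have hN0 : N ≠ 0 := fun h => hp2N (h ▸ dvd_zero _)
  have hΔ : W.Δ ≠ 0 := fun h => by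
    obtain ⟨q, hq, hqp⟩ := Nat.exists_infinite_primes (N + 1)
    exact absurd (Nat.le_of_dvd (Nat.pos_of_ne_zero hN0) (hbad q hqp (h ▸ dvd_zero _))) (by omega)
  haveI : NeZero N := ⟨hN0⟩
  obtain ⟨M, hMN, hM0, g, hg, hgW'⟩ := Newform.exists_newform_of_isModularModelOfLevel hN
  haveI : NeZero M := ⟨hM0.ne'⟩
  have hgW : ∀ ℓ : ℕ, ℓ.Prime → ¬ ℓ ∣ N → qCoeff g ℓ = (W.apOfModel ℓ : ℂ) :=
    fun ℓ hℓ hℓN => hgW' ℓ hℓ (fun h => hℓN (hbad ℓ hℓ h)) hℓN
  have hsq : ∀ ℓ : ℕ, ℓ.Prime → ¬ ℓ ^ 2 ∣ M := by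
    intro ℓ hℓ hℓ2
    have hℓp : ℓ ≠ p := fun h => hp2N (h ▸ hℓ2.trans hMN)
    have hndvd : ∀ n : ℕ, ¬ ℓ ∣ p ^ n := fun n h =>
      hℓp ((Nat.prime_dvd_prime_iff_eq hℓ hp).mp (hℓ.dvd_of_dvd_pow h))
    refine square_step h36 hfin hΔ hMN hN0 hN3 hg hgW hp2 hirr hℓ hℓp ?_ hℓ2
    intro A hA σ hσ n
    by_cases hgood : W.IsGoodPrimeFor ℓ
    · have h1 : torsRep W (p ^ n) σ = 1 := LinearMap.ext fun x =>
        ECRed.galoisRepUnramifiedAt_of_isGoodPrimeFor W hℓ hgood (hndvd n) A hA σ hσ x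
      rw [h1, sub_self, mul_zero]
    · exact Mult.inertia_sub_one_mul_sub_one
        (Mult.IsMultPlace.of_semistable hΔ hss hℓ (not_not.mp hgood) hA)
        (pow_ne_zero _ hp.ne_zero) (hndvd n) hσ
  have hMsq : Squarefree M := by
    rw [Nat.squarefree_iff_prime_squarefree]
    exact fun q hq h => hsq q hq (by rwa [pow_two])
  have hMbad : ∀ ℓ : ℕ, ℓ.Prime → ℓ ∣ M → (ℓ : ℤ) ∣ W.Δ := by
    intro ℓ hℓ hℓM
    by_contra h
    exact hsq ℓ hℓ ((good_prime_step h35 hfin hΔ hMN hN0 hg hgW hℓ h).1 hℓM)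
  have hdvd : M ∣ W.conductorLevel := by
    rw [← Nat.prod_primeFactors_of_squarefree hMsq,
      ← Nat.prod_primeFactors_of_squarefree W.squarefree_conductorLevel]
    refine Finset.prod_dvd_prod_of_subset _ _ _ fun q hq => ?_
    obtain ⟨hqp, hqM, -⟩ := Nat.mem_primeFactors.mp hq
    exact Nat.mem_primeFactors.mpr
      ⟨hqp, (W.prime_dvd_conductorLevel_iff hΔ hqp).mpr (hMbad q hqp hqM),
        W.conductorLevel_pos.ne'⟩
  obtain ⟨f, hf, hfg⟩ := exists_eigenform_of_dvd hdvd hg.1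
  refine ⟨f, hf, fun ℓ hℓ hgood hℓR => ?_⟩
  rw [hfg ℓ hℓ hℓR]
  exact (good_prime_step h35 hfin hΔ hMN hN0 hg hgW hℓ hgood).2 fun h => hℓR (h.trans hdvd)

end Fermat.Agent.CondLevel
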